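/-
S25 package A2, items (H0) and (Aut) -- helper1430.

* `exists_const_of_tensor_eq`, `hglob_tensor`, `hinj_tensor`: for a curve presentation `𝒞` and any
  `k`-algebra `R`, `H⁰(O_R) = R` (flat base change of `A₁ ∩ A₂ = k`), in raw tensor form, i.e. for
  the natural two-chart `B_i = R ⊗[k] A_i`, `r_i = Algebra.TensorProduct.map (AlgHom.id R R) 𝒞.r_i`.
* `aut_eq_smul`: on any two-chart with `H⁰(O) = R` and `R → B₁` injective, every automorphism of a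
  line bundle is multiplication by a unit of `R` (export `E_aut` of the route).
* `eq_zero_of_smul_N₁₂`: `N₁₂` is faithful over `B₁₂`.

Imports only `Fermat.Agent.S25.Core` (helper5425, verbatim).  No sorry.
-/
import Fermat.Agent.S25.Core

set_option autoImplicit false

universe u

namespace Fermat.Agent.S25.CONN.Count.H1430


open Fermat.Agent.S25
open scoped TensorProduct

variable {k : Type u} [Field k] (𝒞 : CurveData k)

/-- The Čech differential of the structure sheaf of the curve presentation. -/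
def cechO : (𝒞.A₁ × 𝒞.A₂) →ₗ[k] 𝒞.A₁₂ :=
  𝒞.r₁.toLinearMap.comp (LinearMap.fst k 𝒞.A₁ 𝒞.A₂) -
    𝒞.r₂.toLinearMap.comp (LinearMap.snd k 𝒞.A₁ 𝒞.A₂)

/-- The diagonal inclusion of the constants. -/
def diagO : k →ₗ[k] (𝒞.A₁ × 𝒞.A₂) :=
  (Algebra.linearMap k 𝒞.A₁).prod (Algebra.linearMap k 𝒞.A₂)

lemma exact_diagO_cechO : Function.Exact (diagO 𝒞) (cechO 𝒞) := by
  intro p
  constructor
  · intro hp
    have h12 : 𝒞.r₁ p.1 = 𝒞.r₂ p.2 := by
      have : 𝒞.r₁ p.1 - 𝒞.r₂ p.2 = 0 := hp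
      exact sub_eq_zero.mp this
    obtain ⟨c, hc⟩ := 𝒞.glob p.1 p.2 h12
    refine ⟨c, ?_⟩
    have h2 : p.2 = algebraMap k 𝒞.A₂ c := by
      apply 𝒞.inj₂
      rw [← h12, hc, AlgHom.commutes, AlgHom.commutes]
    ext
    · simp [diagO, hc]
    · simp [diagO, h2]
  · rintro ⟨c, rfl⟩
    simp [diagO, cechO]

lemma lTensor_fst_diagO (R : Type u) [CommRing R] [Algebra k R] (w : R ⊗[k] k) :
    ((LinearMap.fst k 𝒞.A₁ 𝒞.A₂).comp (diagO 𝒞)).lTensor R w =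
      (TensorProduct.rid k R w) ⊗ₜ[k] (1 : 𝒞.A₁) := by
  induction w using TensorProduct.induction_on with
  | zero => simp
  | tmul a b =>
    rw [LinearMap.lTensor_tmul, TensorProduct.rid_tmul]
    change a ⊗ₜ[k] (algebraMap k 𝒞.A₁ b) = _
    rw [Algebra.algebraMap_eq_smul_one, TensorProduct.smul_tmul]
  | add a b ha hb => rw [map_add, map_add, TensorProduct.add_tmul, ha, hb]

lemma lTensor_snd_diagO (R : Type u) [CommRing R] [Algebra k R] (w : R ⊗[k] k) :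
    ((LinearMap.snd k 𝒞.A₁ 𝒞.A₂).comp (diagO 𝒞)).lTensor R w =
      (TensorProduct.rid k R w) ⊗ₜ[k] (1 : 𝒞.A₂) := by
  induction w using TensorProduct.induction_on with
  | zero => simp
  | tmul a b =>
    rw [LinearMap.lTensor_tmul, TensorProduct.rid_tmul]
    change a ⊗ₜ[k] (algebraMap k 𝒞.A₂ b) = _
    rw [Algebra.algebraMap_eq_smul_one, TensorProduct.smul_tmul]
  | add a b ha hb => rw [map_add, map_add, TensorProduct.add_tmul, ha, hb]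

/-- **(H0)**, raw form: `H⁰(O_R) = R` for every `k`-algebra `R` (flat base change of
`A₁ ∩ A₂ = k`). -/
theorem exists_const_of_tensor_eq (R : Type u) [CommRing R] [Algebra k R]
    (x : R ⊗[k] 𝒞.A₁) (y : R ⊗[k] 𝒞.A₂)
    (h : Algebra.TensorProduct.map (AlgHom.id R R) 𝒞.r₁ x =
      Algebra.TensorProduct.map (AlgHom.id R R) 𝒞.r₂ y) :
    ∃ c : R, x = c ⊗ₜ[k] (1 : 𝒞.A₁) ∧ y = c ⊗ₜ[k] (1 : 𝒞.A₂) := by
  have hex := Module.Flat.lTensor_exact R (exact_diagO_cechO 𝒞)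
  set z : R ⊗[k] (𝒞.A₁ × 𝒞.A₂) :=
    (LinearMap.inl k 𝒞.A₁ 𝒞.A₂).lTensor R x + (LinearMap.inr k 𝒞.A₁ 𝒞.A₂).lTensor R y with hz
  have h1 : ∀ x : R ⊗[k] 𝒞.A₁, Algebra.TensorProduct.map (AlgHom.id R R) 𝒞.r₁ x =
      𝒞.r₁.toLinearMap.lTensor R x := by
    intro x
    induction x using TensorProduct.induction_on with
    | zero => simp
    | tmul a b => simp
    | add a b ha hb => rw [map_add, map_add, ha, hb]
  have h2 : ∀ y : R ⊗[k] 𝒞.A₂, Algebra.TensorProduct.map (AlgHom.id R R) 𝒞.r₂ y =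
      𝒞.r₂.toLinearMap.lTensor R y := by
    intro y
    induction y using TensorProduct.induction_on with
    | zero => simp
    | tmul a b => simp
    | add a b ha hb => rw [map_add, map_add, ha, hb]
  have hzker : (cechO 𝒞).lTensor R z = 0 := by
    rw [hz, map_add, ← LinearMap.lTensor_comp_apply, ← LinearMap.lTensor_comp_apply]
    have e1 : (cechO 𝒞).comp (LinearMap.inl k 𝒞.A₁ 𝒞.A₂) = 𝒞.r₁.toLinearMap := by
      ext a; simp [cechO]
    have e2 : (cechO 𝒞).comp (LinearMap.inr k 𝒞.A₁ 𝒞.A₂) = -𝒞.r₂.toLinearMap := by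
      ext a; simp [cechO]
    rw [e1, e2, LinearMap.lTensor_neg, LinearMap.neg_apply, ← h1, ← h2, h, add_neg_cancel]
  obtain ⟨w, hw⟩ := (hex z).mp hzker
  refine ⟨TensorProduct.rid k R w, ?_, ?_⟩
  · have hx : x = (LinearMap.fst k 𝒞.A₁ 𝒞.A₂).lTensor R z := by
      rw [hz, map_add, ← LinearMap.lTensor_comp_apply, ← LinearMap.lTensor_comp_apply]
      simp
    rw [hx, ← hw, ← LinearMap.lTensor_comp_apply, lTensor_fst_diagO]
  · have hy : y = (LinearMap.snd k 𝒞.A₁ 𝒞.A₂).lTensor R z := by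
      rw [hz, map_add, ← LinearMap.lTensor_comp_apply, ← LinearMap.lTensor_comp_apply]
      simp
    rw [hy, ← hw, ← LinearMap.lTensor_comp_apply, lTensor_snd_diagO]


/-- `(H0)` in the form of the hypothesis `hglob` of `aut_eq_smul`, for the natural chart
`B_i = R ⊗[k] A_i`. -/
theorem hglob_tensor (R : Type u) [CommRing R] [Algebra k R]
    (b₁ : R ⊗[k] 𝒞.A₁) (b₂ : R ⊗[k] 𝒞.A₂)
    (h : Algebra.TensorProduct.map (AlgHom.id R R) 𝒞.r₁ b₁ =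
      Algebra.TensorProduct.map (AlgHom.id R R) 𝒞.r₂ b₂) :
    ∃ c : R, b₁ = algebraMap R (R ⊗[k] 𝒞.A₁) c ∧ b₂ = algebraMap R (R ⊗[k] 𝒞.A₂) c := by
  obtain ⟨c, h₁, h₂⟩ := exists_const_of_tensor_eq 𝒞 R b₁ b₂ h
  exact ⟨c, by rw [h₁, Algebra.TensorProduct.algebraMap_apply]; rfl,
    by rw [h₂, Algebra.TensorProduct.algebraMap_apply]; rfl⟩

/-- `R → R ⊗[k] A₁` is injective. -/
theorem hinj_tensor (R : Type u) [CommRing R] [Algebra k R] :
    Function.Injective (algebraMap R (R ⊗[k] 𝒞.A₁)) := by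
  have := 𝒞.dom₁
  have h := Algebra.TensorProduct.includeLeft_injective (R := k) (S := R) (A := R) (B := 𝒞.A₁)
    (algebraMap k 𝒞.A₁).injective
  intro x y hxy
  apply h
  simpa [Algebra.TensorProduct.algebraMap_apply] using hxy

end Fermat.Agent.S25.CONN.Count.H1430

namespace Fermat.Agent.S25.CONN.Count.H1430


open Fermat.Agent.S25

variable {R : Type u} [CommRing R] {𝔹 : TwoChart R} (N : GluedModule 𝔹)

lemma isUnit_r₁f : IsUnit (𝔹.r₁ 𝔹.f) := IsUnit.of_mul_eq_one _ 𝔹.fg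

lemma isUnit_r₂g : IsUnit (𝔹.r₂ 𝔹.g) := IsUnit.of_mul_eq_one _ (by rw [mul_comm]; exact 𝔹.fg)

/-- `N₁₂` is a faithful `B₁₂`-module when `N₁` is a finite faithful `B₁`-module. -/
lemma eq_zero_of_smul_N₁₂ [Module.Finite 𝔹.B₁ N.N₁] [FaithfulSMul 𝔹.B₁ N.N₁]
    (c : 𝔹.B₁₂) (hc : ∀ y : N.N₁₂, c • y = 0) : c = 0 := by
  classical
  obtain ⟨a, n, rfl⟩ := 𝔹.surj₁ c
  have hu : IsUnit (𝔹.r₂ 𝔹.g ^ n) := (isUnit_r₂g (𝔹 := 𝔹)).pow n
  -- `r₁ a` kills `ι₁ N₁`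
  have h1 : ∀ x : N.N₁, N.ι₁ (a • x) = 0 := by
    intro x
    have h := hc (N.ι₁ x)
    rw [mul_comm, mul_smul] at h
    rw [N.ι₁_smul]
    exact (hu.smul_eq_zero).mp h
  -- uniform exponent on generators
  obtain ⟨s, hs⟩ := (Module.Finite.fg_top : (⊤ : Submodule 𝔹.B₁ N.N₁).FG)
  choose e he using fun x : N.N₁ => N.ker₁ (a • x) (h1 x)
  set m := s.sup e with hm
  have h2 : ∀ x : N.N₁, (𝔹.f ^ m * a) • x = 0 := by
    intro x
    have hx : x ∈ Submodule.span 𝔹.B₁ (s : Set N.N₁) := hs ▸ Submodule.mem_top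
    induction hx using Submodule.span_induction with
    | mem y hy =>
      have hle : e y ≤ m := Finset.le_sup hy
      obtain ⟨d, hd⟩ := Nat.exists_eq_add_of_le hle
      rw [mul_smul, hd, pow_add, mul_comm, mul_smul, he y, smul_zero]
    | zero => rw [smul_zero]
    | add y z _ _ hy hz => rw [smul_add, hy, hz, add_zero]
    | smul b y _ hy => rw [smul_comm, hy, smul_zero]
  have h3 : 𝔹.f ^ m * a = 0 := by
    apply FaithfulSMul.eq_of_smul_eq_smul (α := N.N₁)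
    intro x
    rw [h2 x, zero_smul]
  have h4 : 𝔹.r₁ 𝔹.f ^ m * 𝔹.r₁ a = 0 := by
    rw [← map_pow, ← map_mul, h3, map_zero]
  have h5 : 𝔹.r₁ a = 0 := ((isUnit_r₁f (𝔹 := 𝔹)).pow m).mul_right_eq_zero.mp h4
  rw [h5, zero_mul]

/-- **(Aut)** On a two-chart with `H⁰(O) = R`, every automorphism of a line bundle is
multiplication by a unit of the base ring. -/
theorem aut_eq_smul
    (hglob : ∀ (b₁ : 𝔹.B₁) (b₂ : 𝔹.B₂), 𝔹.r₁ b₁ = 𝔹.r₂ b₂ →
      ∃ c : R, b₁ = algebraMap R 𝔹.B₁ c ∧ b₂ = algebraMap R 𝔹.B₂ c)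
    (hinj : Function.Injective (algebraMap R 𝔹.B₁))
    (hN : N.IsLineBundle) (e : GluedModule.Iso N N) :
    ∃ c : Rˣ, (∀ n, e.e₁ n = (c : R) • n) ∧ (∀ n, e.e₂ n = (c : R) • n) ∧
      (∀ n, e.e₁₂ n = (c : R) • n) := by
  have := hN.inv₁
  have := hN.inv₂
  -- a general description of an endomorphism compatible with the gluing
  have key : ∀ (u₁ : N.N₁ →ₗ[𝔹.B₁] N.N₁) (u₂ : N.N₂ →ₗ[𝔹.B₂] N.N₂) (u₁₂ : N.N₁₂ →ₗ[𝔹.B₁₂] N.N₁₂),
      (∀ n, u₁₂ (N.ι₁ n) = N.ι₁ (u₁ n)) → (∀ n, u₁₂ (N.ι₂ n) = N.ι₂ (u₂ n)) →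
      ∃ c : R, (∀ n, u₁ n = c • n) ∧ (∀ n, u₂ n = c • n) ∧ (∀ n, u₁₂ n = c • n) := by
    intro u₁ u₂ u₁₂ h₁ h₂
    obtain ⟨b₁, hb₁⟩ := (Module.Invertible.toModuleEnd_bijective 𝔹.B₁ N.N₁).surjective u₁
    obtain ⟨b₂, hb₂⟩ := (Module.Invertible.toModuleEnd_bijective 𝔹.B₂ N.N₂).surjective u₂
    have hu₁ : ∀ n, u₁ n = b₁ • n := fun n => by rw [← hb₁]; rfl
    have hu₂ : ∀ n, u₂ n = b₂ • n := fun n => by rw [← hb₂]; rfl
    have hu₁₂ : ∀ y, u₁₂ y = 𝔹.r₁ b₁ • y := by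
      intro y
      obtain ⟨n, m, rfl⟩ := N.surj₁ y
      rw [map_smul, h₁, hu₁, N.ι₁_smul, smul_comm]
    have hu₁₂' : ∀ y, u₁₂ y = 𝔹.r₂ b₂ • y := by
      intro y
      obtain ⟨n, m, rfl⟩ := N.surj₂ y
      rw [map_smul, h₂, hu₂, N.ι₂_smul, smul_comm]
    have hb : 𝔹.r₁ b₁ = 𝔹.r₂ b₂ := by
      have := eq_zero_of_smul_N₁₂ N (𝔹.r₁ b₁ - 𝔹.r₂ b₂) (fun y => by
        rw [sub_smul, ← hu₁₂, ← hu₁₂', sub_self])
      exact sub_eq_zero.mp this
    obtain ⟨c, hc₁, hc₂⟩ := hglob b₁ b₂ hb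
    refine ⟨c, fun n => ?_, fun n => ?_, fun y => ?_⟩
    · rw [hu₁, hc₁, algebraMap_smul]
    · rw [hu₂, hc₂, algebraMap_smul]
    · rw [hu₁₂, hc₁, AlgHom.commutes, algebraMap_smul]
  obtain ⟨c, hc₁, hc₂, hc₁₂⟩ := key e.e₁.toLinearMap e.e₂.toLinearMap e.e₁₂.toLinearMap
    (fun n => e.comm₁ n) (fun n => e.comm₂ n)
  obtain ⟨c', hc₁', -, -⟩ := key e.e₁.symm.toLinearMap e.e₂.symm.toLinearMap
    e.e₁₂.symm.toLinearMap
    (fun n => by
      apply e.e₁₂.injective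
      change e.e₁₂ (e.e₁₂.symm (N.ι₁ n)) = e.e₁₂ (N.ι₁ (e.e₁.symm n))
      rw [e.comm₁]; simp)
    (fun n => by
      apply e.e₁₂.injective
      change e.e₁₂ (e.e₁₂.symm (N.ι₂ n)) = e.e₁₂ (N.ι₂ (e.e₂.symm n))
      rw [e.comm₂]; simp)
  have hcc : c * c' = 1 := by
    apply hinj
    apply FaithfulSMul.eq_of_smul_eq_smul (α := N.N₁)
    intro n
    rw [algebraMap_smul, algebraMap_smul, mul_smul, one_smul]
    have h1 := hc₁ (e.e₁.symm n)
    have h2 := hc₁' n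
    simp only [LinearEquiv.coe_coe, LinearEquiv.apply_symm_apply] at h1 h2
    rw [← h2, ← h1]
  refine ⟨⟨c, c', hcc, by rw [mul_comm]; exact hcc⟩, hc₁, hc₂, hc₁₂⟩

end Fermat.Agent.S25.CONN.Count.H1430
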